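import Fermat.Agent.S38.IA.Spec

/-!
# Row S59, cell LO-IA (B2), HECKE-T: the `t`-generic twin of `S38/IA/Spec.lean`  (helper3)

MECHANICAL TWIN of the cell HECKE of row HARD (`S38/IA/Hecke/*`, closed for `t = .flat`, `5 ≤ p`),
for BOTH types `ty = .flat` / `ty = .sord` at `p` and EVERY odd prime `p`.  The frozen files of row
HARD are NOT touched: every twin lives in `Fermat/Agent/S38T/…` and its declarations carry the
suffix `_T`.

Conventions of the twin:
* `(ty : PType) (_hflat : IsPTypeAt p ρbar ty)` replaces the hypothesis `IsFlatAt p`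
  (`IsPTypeAt` = VERBATIM the hypothesis `_ht` of `TW.PkgStatement`);
* `(_hp5 : 3 ≤ p)` replaces `5 ≤ p`;
* base level `wilesLevel p ty Smin Smin`, package `HeckePkg p 𝒪 ρbar ty Smin Σ`;
* minimal level `ribetLevelT p ty Smin Piv` (`= ribetLevel p Smin Piv` for `.flat`,
  `= ribetLevel p Smin Piv * p` for `.sord`, BY `rfl`).
Only sorry-free definitions in this file.
-/

set_option autoImplicit false

open Polynomial IsLocalRing

namespace Fermat.Agent.S38.IA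

open Fermat.Agent.S59.Arch Fermat.Agent.S59.TW.H959

/-- The type of `ρ̄` at `p`: VERBATIM the hypothesis `_ht` of `TW.PkgStatement`. -/
def IsPTypeAt {k : Type} [Field k] (p : ℕ) (ρbar : ResidualGaloisRep k) (ty : PType) : Prop :=
  (ty = .flat ∧ (GaloisRepAdic.ofResidualGaloisRep ρbar).IsFlatAt p) ∨
    (ty = .sord ∧ (GaloisRepAdic.ofResidualGaloisRep ρbar).IsStrictOrdinaryAt p ∧
      ¬ (GaloisRepAdic.ofResidualGaloisRep ρbar).IsFlatAt p)

/-- The factor at `p` of Wiles's level. -/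
def pFac (p : ℕ) (ty : PType) : ℕ :=
  match ty with
  | .flat => 1
  | .sord => p
  | .ord => p

/-- **Ribet's level of type `ty`**: `ribetLevel p Smin Piv` for `.flat`,
`ribetLevel p Smin Piv * p` for `.sord`. -/
noncomputable def ribetLevelT (p : ℕ) (ty : PType) (Smin Piv : Finset ℕ) : ℕ :=
  match ty with
  | .flat => ribetLevel p Smin Piv
  | .sord => ribetLevel p Smin Piv * p
  | .ord => ribetLevel p Smin Piv * p

theorem ribetLevelT_flat (p : ℕ) (Smin Piv : Finset ℕ) :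
    ribetLevelT p .flat Smin Piv = ribetLevel p Smin Piv := rfl

theorem ribetLevelT_sord (p : ℕ) (Smin Piv : Finset ℕ) :
    ribetLevelT p .sord Smin Piv = ribetLevel p Smin Piv * p := rfl

theorem ribetLevelT_eq (p : ℕ) (ty : PType) (Smin Piv : Finset ℕ) :
    ribetLevelT p ty Smin Piv = ribetLevel p Smin Piv * pFac p ty := by
  cases ty <;> simp [ribetLevelT, pFac]

theorem wilesLevel_eq_mul_pFac (p : ℕ) (ty : PType) (Smin Sig : Finset ℕ) :
    wilesLevel p ty Smin Sig = wilesLevel p .flat Smin Sig * pFac p ty := by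
  cases ty <;> simp [wilesLevel, pFac]

section Hecke

variable (p : ℕ)
  (𝒪 : Type) [CommRing 𝒪] [IsDomain 𝒪] [IsDiscreteValuationRing 𝒪]
  [IsAdicComplete (maximalIdeal 𝒪) 𝒪]
  (ρbar : ResidualGaloisRep (ResidueField 𝒪))

/-- **The Hecke side of Ihara avoidance at one Taylor–Wiles set `Q = {q_i}` of level `n`**, type
`ty` at `p`: `IA.HasIAModule` with `.flat` replaced by `ty`. -/
def HasIAModule_T (ty : PType) (Smin Piv : Finset ℕ) (lam : 𝒪) (d n : ℕ) {r : ℕ}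
    (qv : Fin r → ℕ) : Prop :=
  ∃ (_ : NeZero (wilesLevel p ty Smin (Smin ∪ Piv ∪ Finset.univ.image qv)))
    (PQ : HeckePkg p 𝒪 ρbar ty Smin (Smin ∪ Piv ∪ Finset.univ.image qv))
    (MQ : Type) (_ : AddCommGroup MQ) (_ : Module PQ.T MQ)
    (w : Fin r → PQ.T) (b : Fin d → MQ),
    -- freeness over the group ring of the Taylor–Wiles primes
    IsGroupRingBasis 𝒪 (p ^ n) w b ∧
    (∀ i, w i - 1 ∈ maximalIdeal PQ.T) ∧
    -- (SUPP-NU) the module is supported on the points which are not unipotent at the pivots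
    (∀ t : PQ.T,
      (∀ (𝒪' : Type) [CommRing 𝒪'] [IsDomain 𝒪'] [IsDiscreteValuationRing 𝒪'] [CharZero 𝒪']
          [Algebra 𝒪 𝒪'] (x : PQ.T →ₐ[𝒪] 𝒪') (hx : IsLocalHom (x : PQ.T →+* 𝒪')),
          (∀ q ∈ Piv,
            ¬ (PQ.H.ρ.baseChangeAlong (x : PQ.T →+* 𝒪') hx).IsUnipotentOnInertiaAt q) →
          x t = 0) →
      ∀ m : MQ, t • m = 0) ∧
    -- (ST) the Steinberg element is divisible by `lam` on the module
    (∀ q ∈ Piv, ∀ P : ValuationSubring (AlgebraicClosure ℚ), P.LiesOverPrime q →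
      ∀ φ : AlgebraicClosure ℚ ≃ₐ[ℚ] AlgebraicClosure ℚ, P.IsFrobeniusAt φ q →
        ∀ m : MQ, ∃ m' : MQ,
          (PQ.H.ρ.trace φ ^ 2 - ((1 + q : ℕ) : PQ.T) ^ 2) • m = algebraMap 𝒪 PQ.T lam • m')

/-- For `ty = .flat` this is `IA.HasIAModule` (by `Iff.rfl`). -/
theorem hasIAModule_T_flat (Smin Piv : Finset ℕ) (lam : 𝒪) (d n : ℕ) {r : ℕ} (qv : Fin r → ℕ) :
    HasIAModule_T p 𝒪 ρbar .flat Smin Piv lam d n qv ↔
      HasIAModule p 𝒪 ρbar Smin Piv lam d n qv := Iff.rfl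

end Hecke

/-- **LEAF HECKE-T of cell LO-IA (B2) of row S59**: `IA.IAHeckeStatement` for both types at `p` and
every odd prime `p`. -/
def IAHeckeStatement_T : Prop :=
  ∀ (p : ℕ) [Fact p.Prime]
    (𝒪 : Type) [CommRing 𝒪] [IsDomain 𝒪] [IsDiscreteValuationRing 𝒪]
    [IsAdicComplete (maximalIdeal 𝒪) 𝒪] [Finite (ResidueField 𝒪)] [CharZero 𝒪]
    (ρbar : ResidualGaloisRep (ResidueField 𝒪)) (Smin : Finset ℕ)
    (_h : ResidualHyp p 𝒪 ρbar Smin)
    (ty : PType) (_hflat : IsPTypeAt p ρbar ty)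
    (ζ : 𝒪) (_hζ : IsPrimitiveRoot ζ p)
    (Piv : Finset ℕ) (_hPiv : IsPivotSet p ρbar Smin Piv)
    (_hmod : ResModular 𝒪 ρbar (ribetLevelT p ty Smin Piv) (Smin ∪ Piv))
    (_hmin : ∀ q ∈ Piv, ∀ S : Finset ℕ,
      ¬ ResModular 𝒪 ρbar (ribetLevelT p ty Smin (Piv.erase q)) S),
    ∃ d : ℕ, 0 < d ∧ ∀ (n r : ℕ) (qv : Fin r → ℕ), IsTWSet p ρbar (Smin ∪ Piv) n qv →
      HasIAModule_T p 𝒪 ρbar ty Smin Piv (ζ - 1) d n qv

end Fermat.Agent.S38.IA
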